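/-
Cluster G (S36), block IGUSA, seat COUNT-ABS (helper90): **saturated systems of extensions**.

`F / F₀` finite, `Ov` a valuation subring of `F₀`, `O i` (`i : ι`, finite) pairwise distinct
valuation subrings of `F` over `Ov`, with residually independent families `x i : Fin (d i) → F`
at `O i` such that `∑ i, d i = [F : F₀]` (structure `SatExt`).  Then, by the fundamental
inequality (`sum_card_le_finrank`):

* `SatExt.exists_eq`       : every valuation subring of `F` over `Ov` is one of the `O i`;
* `SatExt.residue_span`    : every `y ∈ O i` is congruent mod `m_i` to `∑ l, g l * x i l`, `g l ∈ Ov`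
                             (the residue degree at `O i` is exactly `d i`);
* `SatExt.pos`             : `0 < d i`;
* `SatExt.exists_jointLift`: weak approximation WITH residues: for `y ∈ O i` there is `b`, integral
                             at all `O j`, `b ≡ y` at `O i`, `b ≡ 0` at the other `O j`;
* `exists_val_eq_of_divisible` : `e = 1` when the value group of `Ov` is divisible (the case of
                             all Gauss valuations over `Qbar`): every value of `F` is a value of `F₀`.

With residue maps `ρE : Ov → Ek`, `ρF i : O i → Fk i` (surjective, kernel = maximal ideal,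
compatible; structure `SatRes`):

* `SatExt.linearIndependent_res`, `SatExt.span_res`, `SatExt.finrank_res` : the residues of `x i`
                             form a basis of `Fk i / Ek`; `[Fk i : Ek] = d i`;
* `SatExt.adjoin_res_eq_top` : if `x i l = θ ^ l` then `Fk i = Ek[θ-bar]`;
* `SatExt.multiNormSetup`  : the hypotheses of helper28's `normRed_multi` hold;
* `SatExt.normRed`         : `ρE (N_{F/F₀} t) = ∏ i, N_{Fk i / Ek} (ρF i t)` for `t ∈ ⋂ O i`;
* `resIndep_of_linearIndependent_res` : criterion for residual independence.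

This generalises `TwoExt` to any number of extensions.  Use: `X₀(q² M₀) → X₀(q M₀)` (extensions
`w_∞, w_+, w_-` of degrees `1, (q-1)/2, (q-1)/2` over `w_∞`; one extension of degree `q`,
purely inseparable, over `w_0`; for `q = 2` one middle valuation) and the horizontal valuation
`w_P` (one extension of degree `q (q + 1)` of the Gauss valuation of `Qbar(Y)`).
-/
import Mathlib
import Fermat.Agent.Lib.BadRed.TwoExt
import Fermat.Agent.S36.Norm.Multi

set_option autoImplicit false
set_option linter.style.haveILetI false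
set_option linter.unusedSectionVars false

noncomputable section

namespace Fermat.Agent.BadRed

open scoped Classical

variable {F₀ F : Type*} [Field F₀] [Field F] [Algebra F₀ F]

section SumElim

variable {Ov : ValuationSubring F₀} {O : ValuationSubring F}

/-- adding an empty family does not change residual independence. -/
theorem resIndep_sumElim_of_isEmpty {κ U : Type*} [Fintype κ] [Fintype U] [IsEmpty U]
    {x : κ → F} (hx : ResIndep Ov O x) (z : U → F) :
    ResIndep Ov O (Sum.elim x z : κ ⊕ U → F) := by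
  refine ⟨fun i => ?_, fun a ha hsum => ?_⟩
  · rcases i with i | u
    · exact hx.1 i
    · exact isEmptyElim u
  · rw [Fintype.sum_sum_type] at hsum
    simp only [Sum.elim_inl, Sum.elim_inr, Finset.univ_eq_empty, Finset.sum_empty,
      add_zero] at hsum
    have h2 := hx.2 (fun l => a (Sum.inl l)) (fun l => ha _) hsum
    intro l
    rcases l with l | u
    · exact h2 l
    · exact isEmptyElim u

/-- extending a residually independent family (any finite index type) by one element which is
not congruent to a combination of the family. -/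
theorem resIndep_sumElim_of_unique {κ U : Type*} [Fintype κ] [Fintype U] [Unique U]
    (h : LiesOverV Ov O) {x : κ → F} (hx : ResIndep Ov O x) {y : F} (hy : y ∈ O)
    (hno : ∀ g : κ → F₀, (∀ l, g l ∈ Ov) →
      y - ∑ l, algebraMap F₀ F (g l) * x l ∉ O.nonunits) :
    ResIndep Ov O (Sum.elim x (fun _ : U => y) : κ ⊕ U → F) := by
  refine ⟨fun i => ?_, fun a ha hsum => ?_⟩
  · rcases i with i | u
    · exact hx.1 i
    · exact hy
  · rw [Fintype.sum_sum_type] at hsum
    simp only [Sum.elim_inl, Sum.elim_inr, Finset.univ_unique, Finset.sum_singleton] at hsum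
    set b : F₀ := a (Sum.inr default) with hb
    have h1 : b ∈ Ov.nonunits := by
      by_contra hu
      have ha1 : b ≠ 0 := by
        rintro h0
        apply hu
        rw [h0, ValuationSubring.mem_nonunits_iff, map_zero]
        exact zero_lt_one
      have hinv : b⁻¹ ∈ Ov := by
        rw [ValuationSubring.mem_nonunits_iff_or, not_or, not_not] at hu
        exact hu.2
      apply hno (fun l => -(a (Sum.inl l) * b⁻¹))
        (fun l => Ov.neg_mem _ (Ov.mul_mem _ _ (ha _) hinv))
      have e : y - ∑ l, algebraMap F₀ F (-(a (Sum.inl l) * b⁻¹)) * x l =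
          algebraMap F₀ F b⁻¹ *
            (∑ l, algebraMap F₀ F (a (Sum.inl l)) * x l + algebraMap F₀ F b * y) := by
        have hne : algebraMap F₀ F b ≠ 0 := by simpa using ha1
        rw [mul_add, Finset.mul_sum, map_inv₀, ← mul_assoc, inv_mul_cancel₀ hne, one_mul,
          sub_eq_add_neg, add_comm, ← Finset.sum_neg_distrib]
        congr 1
        refine Finset.sum_congr rfl fun i _ => ?_
        rw [map_neg, map_mul, map_inv₀]
        ring
      rw [e]
      exact mul_nonunits_mem ((h.mem_iff _).mpr hinv) hsum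
    have h0 : ∑ l, algebraMap F₀ F (a (Sum.inl l)) * x l ∈ O.nonunits := by
      have e : ∑ l, algebraMap F₀ F (a (Sum.inl l)) * x l =
          (∑ l, algebraMap F₀ F (a (Sum.inl l)) * x l + algebraMap F₀ F b * y)
            - algebraMap F₀ F b * y := by
        ring
      rw [e]
      rw [ValuationSubring.mem_nonunits_iff] at hsum ⊢
      refine lt_of_le_of_lt (Valuation.map_sub _ _ _) (max_lt hsum ?_)
      rw [← ValuationSubring.mem_nonunits_iff]
      exact nonunits_mul_mem ((h.nonunits_iff _).mpr h1) hy
    have h2 := hx.2 (fun l => a (Sum.inl l)) (fun l => ha _) h0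
    intro l
    rcases l with l | u
    · exact h2 l
    · rw [Unique.eq_default u]
      exact h1

/-- multiplying a residually independent family by a unit of `O`. -/
theorem ResIndep.mul_unit {κ : Type*} [Fintype κ] {x : κ → F} (hx : ResIndep Ov O x)
    {u : F} (hu : O.valuation u = 1) : ResIndep Ov O (fun l => u * x l) := by
  have huO : u ∈ O := (O.valuation_le_one_iff u).mp hu.le
  refine ⟨fun l => O.mul_mem _ _ huO (hx.1 l), fun a ha hsum => ?_⟩
  refine hx.2 a ha ?_
  have e : ∑ l, algebraMap F₀ F (a l) * (u * x l) = u * ∑ l, algebraMap F₀ F (a l) * x l := by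
    rw [Finset.mul_sum]
    refine Finset.sum_congr rfl fun l _ => ?_
    ring
  rw [e, ValuationSubring.mem_nonunits_iff, map_mul, hu, one_mul] at hsum
  rwa [ValuationSubring.mem_nonunits_iff]

end SumElim

/-! ### `e = 1` over a divisible value group -/

/-- **`e = 1`** for an extension of a valuation ring whose value group is divisible (e.g. any
Gauss valuation over `Qbar`): every value of `F` is the value of an element of `F₀`. -/
theorem exists_val_eq_of_divisible [Algebra.IsAlgebraic F₀ F] {Ov : ValuationSubring F₀}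
    {O : ValuationSubring F} (h : LiesOverV Ov O)
    (hdiv : ∀ a : F₀, a ≠ 0 → ∀ m : ℕ, 0 < m → ∃ c : F₀, Ov.valuation c ^ m = Ov.valuation a)
    {y : F} (hy : y ≠ 0) :
    ∃ c : F₀, c ≠ 0 ∧ O.valuation y = O.valuation (algebraMap F₀ F c) := by
  have hint : IsIntegral F₀ y := (Algebra.IsAlgebraic.isAlgebraic y).isIntegral
  set P := minpoly F₀ y with hP
  have hmonic : P.Monic := minpoly.monic hint
  have haeval : ∑ k ∈ Finset.range (P.natDegree + 1), algebraMap F₀ F (P.coeff k) * y ^ k = 0 := by
    have h0 : Polynomial.aeval y P = 0 := minpoly.aeval F₀ y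
    rw [Polynomial.aeval_eq_sum_range] at h0
    simp only [Algebra.smul_def] at h0
    exact h0
  -- key: for `i < j` with equal values of the terms, the claim follows
  have key : ∀ i j : ℕ, i < j → P.coeff i ≠ 0 → P.coeff j ≠ 0 →
      O.valuation (algebraMap F₀ F (P.coeff i) * y ^ i) =
        O.valuation (algebraMap F₀ F (P.coeff j) * y ^ j) →
      ∃ c : F₀, c ≠ 0 ∧ O.valuation y = O.valuation (algebraMap F₀ F c) := by
    intro i j hij hi hj hval
    set m := j - i with hm
    have hmpos : 0 < m := by omega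
    set a : F₀ := P.coeff i / P.coeff j with ha
    have ha0 : a ≠ 0 := div_ne_zero hi hj
    obtain ⟨c, hc⟩ := hdiv a ha0 m hmpos
    have hc0 : c ≠ 0 := by
      rintro rfl
      rw [map_zero, zero_pow hmpos.ne'] at hc
      exact ha0 ((map_eq_zero _).mp hc.symm)
    refine ⟨c, hc0, ?_⟩
    -- `w(y)^m = w(a)`
    have hvy : O.valuation y ≠ 0 := (map_ne_zero _).mpr hy
    have hvj : O.valuation (algebraMap F₀ F (P.coeff j)) ≠ 0 :=
      (map_ne_zero _).mpr (by simpa using hj)
    have h1 : O.valuation y ^ m = O.valuation (algebraMap F₀ F a) := by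
      rw [ha, map_div₀, map_div₀]
      rw [map_mul, map_mul, map_pow, map_pow] at hval
      have hji : j = i + m := by omega
      rw [hji, pow_add, ← mul_assoc] at hval
      have hvyi : O.valuation y ^ i ≠ 0 := pow_ne_zero _ hvy
      rw [eq_div_iff hvj]
      have h2 : O.valuation (algebraMap F₀ F (P.coeff i)) * O.valuation y ^ i =
          (O.valuation y ^ m * O.valuation (algebraMap F₀ F (P.coeff (i + m)))) *
            O.valuation y ^ i := by
        rw [hval]
        ac_rfl
      have h3 := mul_right_cancel₀ hvyi h2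
      rw [hji]
      exact h3.symm
    -- `w(c)^m = w(a)`
    have h2 : O.valuation (algebraMap F₀ F c) ^ m = O.valuation (algebraMap F₀ F a) := by
      have h3 : Ov.valuation (c ^ m / a) = 1 := by
        rw [map_div₀, map_pow, hc]
        exact div_self ((map_ne_zero _).mpr ha0)
      have h4 := (h.val_eq_one_iff _).mpr h3
      rw [map_div₀, map_div₀, map_pow, map_pow] at h4
      have hva : O.valuation (algebraMap F₀ F a) ≠ 0 := (map_ne_zero _).mpr (by simpa using ha0)
      exact (div_eq_one_iff_eq hva).mp h4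
    have h5 : O.valuation y ^ m = O.valuation (algebraMap F₀ F c) ^ m := by rw [h1, h2]
    exact (pow_left_inj₀ zero_le zero_le hmpos.ne').mp h5
  have hne : ∃ k ∈ Finset.range (P.natDegree + 1), algebraMap F₀ F (P.coeff k) * y ^ k ≠ 0 := by
    refine ⟨P.natDegree, Finset.mem_range.mpr (Nat.lt_succ_self _), ?_⟩
    rw [Polynomial.coeff_natDegree, hmonic.leadingCoeff, map_one, one_mul]
    exact pow_ne_zero _ hy
  obtain ⟨i, -, j, -, hij, hval, hj0⟩ :=
    exists_ne_val_eq_of_sum_eq_zero O.valuation _ _ haeval hne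
  have hcj : P.coeff j ≠ 0 := by
    rintro h0
    apply hj0
    rw [h0, map_zero, zero_mul]
  have hi0 : algebraMap F₀ F (P.coeff i) * y ^ i ≠ 0 := by
    intro h0
    rw [h0, map_zero] at hval
    exact hj0 ((map_eq_zero _).mp hval.symm)
  have hci : P.coeff i ≠ 0 := by
    rintro h0
    apply hi0
    rw [h0, map_zero, zero_mul]
  rcases Nat.lt_or_gt_of_ne hij with hlt | hgt
  · exact key i j hlt hci hcj hval
  · exact key j i hgt hcj hci hval.symm

/-! ### Saturated systems -/

/-- A **saturated system of extensions**: pairwise distinct extensions `O i` of `Ov` to the finite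
extension `F / F₀` with residually independent families of total size `[F : F₀]`. -/
structure SatExt {ι : Type*} [Fintype ι] (Ov : ValuationSubring F₀)
    (O : ι → ValuationSubring F) (d : ι → ℕ) (x : (i : ι) → Fin (d i) → F) : Prop where
  /-- `F / F₀` is finite -/
  finite : FiniteDimensional F₀ F
  /-- `O i` lies over `Ov` -/
  liesOver : ∀ i, LiesOverV Ov (O i)
  /-- the `O i` are pairwise distinct -/
  inj : Function.Injective O
  /-- the residue field of `Ov` is infinite -/
  infinite : ∃ c : ℕ → F₀, (∀ m, c m ∈ Ov) ∧ ∀ m m', m ≠ m' → c m - c m' ∉ Ov.nonunits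
  /-- residual independence -/
  indep : ∀ i, ResIndep Ov (O i) (x i)
  /-- the sizes add up to the degree -/
  sum_eq : ∑ i, d i = Module.finrank F₀ F

namespace SatExt

variable {ι : Type*} [Fintype ι] {Ov : ValuationSubring F₀} {O : ι → ValuationSubring F}
  {d : ι → ℕ} {x : (i : ι) → Fin (d i) → F}

/-- **The list is complete**: every extension of `Ov` to `F` is one of the `O i`. -/
theorem exists_eq (T : SatExt Ov O d x) {O' : ValuationSubring F} (h' : LiesOverV Ov O') :
    ∃ i, O' = O i := by
  by_contra hne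
  rw [not_exists] at hne
  have := T.finite
  obtain ⟨c, hc, hcu⟩ := T.infinite
  have key := sum_card_le_finrank Ov (fun o : Option ι => o.elim O' O)
    (fun o => by
      rcases o with _ | i
      · exact h'
      · exact T.liesOver i)
    (fun o o' hoo' => by
      rcases o with _ | i <;> rcases o' with _ | j
      · rfl
      · exact absurd hoo' (hne j)
      · exact absurd hoo'.symm (hne i)
      · exact congrArg some (T.inj hoo'))
    c hc hcu
    (fun o : Option ι => Fin (o.elim 1 d))
    (fun o => match o with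
      | none => fun _ => (1 : F)
      | some i => x i)
    (fun o => by
      rcases o with _ | i
      · exact resIndep_one h'
      · exact T.indep i)
  simp only [Fintype.card_fin] at key
  rw [Fintype.sum_option] at key
  simp only [Option.elim_none, Option.elim_some] at key
  rw [T.sum_eq] at key
  omega

/-- **Exact residue degree**: every element of `O i` is congruent mod the maximal ideal to a
combination of the family `x i` with coefficients in `Ov`. -/
theorem residue_span (T : SatExt Ov O d x) (i : ι) {y : F} (hy : y ∈ O i) :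
    ∃ g : Fin (d i) → F₀, (∀ l, g l ∈ Ov) ∧
      y - ∑ l, algebraMap F₀ F (g l) * x i l ∈ (O i).nonunits := by
  by_contra hno
  rw [not_exists] at hno
  have hno' : ∀ g : Fin (d i) → F₀, (∀ l, g l ∈ Ov) →
      y - ∑ l, algebraMap F₀ F (g l) * x i l ∉ (O i).nonunits :=
    fun g hg hh => hno g ⟨hg, hh⟩
  have := T.finite
  obtain ⟨c, hc, hcu⟩ := T.infinite
  have key := sum_card_le_finrank Ov O T.liesOver T.inj c hc hcu
    (fun j : ι => Fin (d j) ⊕ PLift (j = i))
    (fun j => Sum.elim (x j) (fun _ => y))
    (fun j => by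
      by_cases hji : j = i
      · subst hji
        letI : Unique (PLift (j = j)) := ⟨⟨⟨rfl⟩⟩, fun _ => Subsingleton.elim _ _⟩
        exact resIndep_sumElim_of_unique (T.liesOver j) (T.indep j) hy hno'
      · have : IsEmpty (PLift (j = i)) := ⟨fun h => hji h.down⟩
        exact resIndep_sumElim_of_isEmpty (T.indep j) _)
  have hcard : ∀ j : ι, Fintype.card (Fin (d j) ⊕ PLift (j = i)) = d j + if j = i then 1 else 0 := by
    intro j
    rw [Fintype.card_sum, Fintype.card_fin]
    congr 1
    by_cases hji : j = i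
    · rw [if_pos hji]
      letI : Unique (PLift (j = i)) := ⟨⟨⟨hji⟩⟩, fun _ => Subsingleton.elim _ _⟩
      exact Fintype.card_unique
    · rw [if_neg hji]
      have : IsEmpty (PLift (j = i)) := ⟨fun h => hji h.down⟩
      exact Fintype.card_eq_zero
  simp only [hcard] at key
  rw [Finset.sum_add_distrib, T.sum_eq, Finset.sum_ite_eq' Finset.univ i] at key
  simp only [Finset.mem_univ, if_true] at key
  omega

/-- every family is nonempty. -/
theorem pos (T : SatExt Ov O d x) (i : ι) : 0 < d i := by
  by_contra h0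
  have hd : d i = 0 := by omega
  obtain ⟨g, -, hg⟩ := T.residue_span i (O i).one_mem
  have hempty : ∑ l : Fin (d i), algebraMap F₀ F (g l) * x i l = 0 := by
    have : IsEmpty (Fin (d i)) := by rw [hd]; infer_instance
    exact Finset.sum_of_isEmpty _
  rw [hempty, sub_zero, ValuationSubring.mem_nonunits_iff, map_one] at hg
  exact lt_irrefl _ hg

/-- the families may be replaced by families which are integral at all `O j` and lie in the
maximal ideal of `O j` for `j ≠ i`. -/
theorem exists_joint (T : SatExt Ov O d x) :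
    ∃ x' : (i : ι) → Fin (d i) → F, SatExt Ov O d x' ∧ (∀ i l j, x' i l ∈ O j) ∧
      ∀ i l j, j ≠ i → x' i l ∈ (O j).nonunits := by
  have := T.finite
  obtain ⟨c, hc, hcu⟩ := T.infinite
  have hinc : ∀ i j, i ≠ j → ¬ O i ≤ O j := fun i j hij =>
    not_le_of_liesOverV (T.liesOver i) (T.liesOver j) (fun h => hij (T.inj h))
  have hc' : ∀ i m, algebraMap F₀ F (c m) ∈ O i := fun i m =>
    ((T.liesOver i).mem_iff _).mpr (hc m)
  have hcu' : ∀ i m m', m ≠ m' →
      algebraMap F₀ F (c m) - algebraMap F₀ F (c m') ∉ (O i).nonunits := by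
    intro i m m' hmm
    rw [← map_sub, (T.liesOver i).nonunits_iff]
    exact hcu m m' hmm
  have hE := fun i => exists_idempotent_like O (fun m => algebraMap F₀ F (c m)) hinc hc' hcu' i
  choose E hE1 hE2 hE3 using hE
  have hs := fun i => exists_common_denominator O (fun m => algebraMap F₀ F (c m)) hc' hcu' i
    (x i) (T.indep i).1
  choose s hs1 hs2 hs3 using hs
  refine ⟨fun i l => (E i * s i) * x i l, ⟨T.finite, T.liesOver, T.inj, T.infinite, fun i => ?_,
    T.sum_eq⟩, fun i l j => ?_, fun i l j hji => ?_⟩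
  · refine (T.indep i).mul_unit ?_
    rw [map_mul, val_eq_one_of_sub_one_mem_nonunits (hE2 i), hs2 i, one_mul]
  · show E i * s i * x i l ∈ O j
    rw [mul_assoc]
    exact (O j).mul_mem _ _ (hE1 i j) (hs3 i l j)
  · show E i * s i * x i l ∈ (O j).nonunits
    rw [mul_assoc]
    exact nonunits_mul_mem (hE3 i j hji) (hs3 i l j)

/-- **Weak approximation with residues**: every `y ∈ O i` is congruent mod `m_i` to an element
which is integral at all `O j` and lies in the maximal ideal of `O j` for `j ≠ i`. -/
theorem exists_jointLift (T : SatExt Ov O d x) (i : ι) {y : F} (hy : y ∈ O i) :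
    ∃ b : F, (∀ j, b ∈ O j) ∧ b - y ∈ (O i).nonunits ∧ ∀ j, j ≠ i → b ∈ (O j).nonunits := by
  obtain ⟨x', T', hmem, hnon⟩ := T.exists_joint
  obtain ⟨g, hg, hgy⟩ := T'.residue_span i hy
  refine ⟨∑ l, algebraMap F₀ F (g l) * x' i l, fun j => ?_, ?_, fun j hji => ?_⟩
  · exact (O j).toSubring.sum_mem fun l _ =>
      (O j).mul_mem _ _ (((T.liesOver j).mem_iff _).mpr (hg l)) (hmem i l j)
  · have e : ∑ l, algebraMap F₀ F (g l) * x' i l - y
        = -(y - ∑ l, algebraMap F₀ F (g l) * x' i l) := by ring
    rw [e]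
    exact (O i).nonunits.neg_mem hgy
  · exact (O j).nonunits.sum_mem fun l _ =>
      mul_nonunits_mem (((T.liesOver j).mem_iff _).mpr (hg l)) (hnon i l j hji)

end SatExt

/-! ### Residue maps -/

section Residue

variable {ι : Type*} [Fintype ι] {Ov : ValuationSubring F₀} {O : ι → ValuationSubring F}
  {d : ι → ℕ} {x : (i : ι) → Fin (d i) → F}
  {Ek : Type*} [Field Ek] {Fk : ι → Type*} [∀ i, Field (Fk i)] [∀ i, Algebra Ek (Fk i)]
  {ρE : Ov →+* Ek} {ρF : ∀ i, O i →+* Fk i}

/-- Residue maps for a system of extensions `O i` of `Ov`: surjective ring homomorphisms onto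
fields, killing the maximal ideals, compatible with the inclusions. -/
structure SatRes (Ov : ValuationSubring F₀) (O : ι → ValuationSubring F)
    (ρE : Ov →+* Ek) (ρF : ∀ i, O i →+* Fk i) : Prop where
  /-- `ρE` is surjective -/
  surjE : Function.Surjective ρE
  /-- `ρF i` is surjective -/
  surjF : ∀ i, Function.Surjective (ρF i)
  /-- `ρE` kills the maximal ideal -/
  kerE : ∀ y : Ov, ¬ IsUnit y → ρE y = 0
  /-- `ρF i` kills the maximal ideal -/
  kerF : ∀ i (y : O i), ¬ IsUnit y → ρF i y = 0
  /-- compatibility -/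
  red_map : ∀ (i : ι) (y : F₀) (hy : y ∈ Ov) (hy' : algebraMap F₀ F y ∈ O i),
    ρF i ⟨algebraMap F₀ F y, hy'⟩ = algebraMap Ek (Fk i) (ρE ⟨y, hy⟩)

theorem not_isUnit_iff_mem_nonunits {K : Type*} [Field K] (A : ValuationSubring K) (y : A) :
    ¬ IsUnit y ↔ (y : K) ∈ A.nonunits := by
  rw [ValuationSubring.coe_mem_nonunits_iff, IsLocalRing.mem_maximalIdeal, mem_nonunits_iff]

namespace SatRes

theorem resF_eq_zero_iff (R : SatRes Ov O ρE ρF) (i : ι) (y : O i) :
    ρF i y = 0 ↔ (y : F) ∈ (O i).nonunits := by
  rw [← not_isUnit_iff_mem_nonunits]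
  constructor
  · intro h0 hu
    exact (hu.map (ρF i)).ne_zero h0
  · exact R.kerF i y

theorem resE_eq_zero_iff (R : SatRes Ov O ρE ρF) (y : Ov) :
    ρE y = 0 ↔ (y : F₀) ∈ Ov.nonunits := by
  rw [← not_isUnit_iff_mem_nonunits]
  constructor
  · intro h0 hu
    exact (hu.map ρE).ne_zero h0
  · exact R.kerE y

/-- the residue of a combination. -/
theorem res_sum (R : SatRes Ov O ρE ρF) (i : ι) (hover : LiesOverV Ov (O i))
    {κ : Type*} [Fintype κ] (g : κ → F₀) (hg : ∀ l, g l ∈ Ov) (z : κ → F)
    (hz : ∀ l, z l ∈ O i) (hs : ∑ l, algebraMap F₀ F (g l) * z l ∈ O i) :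
    ρF i ⟨∑ l, algebraMap F₀ F (g l) * z l, hs⟩ = ∑ l, ρE ⟨g l, hg l⟩ • ρF i ⟨z l, hz l⟩ := by
  have hmem : ∀ l, algebraMap F₀ F (g l) ∈ O i := fun l => (hover.mem_iff _).mpr (hg l)
  have e : (⟨∑ l, algebraMap F₀ F (g l) * z l, hs⟩ : O i)
      = ∑ l, (⟨algebraMap F₀ F (g l), hmem l⟩ : O i) * ⟨z l, hz l⟩ := by
    apply Subtype.ext
    have h1 : ((∑ l, (⟨algebraMap F₀ F (g l), hmem l⟩ : O i) * ⟨z l, hz l⟩ : O i) : F)
        = ∑ l, (((⟨algebraMap F₀ F (g l), hmem l⟩ : O i) * ⟨z l, hz l⟩ : O i) : F) :=
      map_sum (O i).subtype _ _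
    rw [h1]
    rfl
  rw [e, map_sum]
  refine Finset.sum_congr rfl fun l _ => ?_
  rw [map_mul, R.red_map i _ (hg l), Algebra.smul_def]

end SatRes

/-- criterion for residual independence: the residues are linearly independent. -/
theorem resIndep_of_linearIndependent_res (R : SatRes Ov O ρE ρF) (i : ι)
    (hover : LiesOverV Ov (O i)) {κ : Type*} [Fintype κ] {z : κ → F} (hz : ∀ l, z l ∈ O i)
    (hli : LinearIndependent Ek (fun l => ρF i ⟨z l, hz l⟩)) : ResIndep Ov (O i) z := by
  refine ⟨hz, fun a ha hsum => ?_⟩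
  have hs : ∑ l, algebraMap F₀ F (a l) * z l ∈ O i :=
    (O i).toSubring.sum_mem fun l _ => (O i).mul_mem _ _ ((hover.mem_iff _).mpr (ha l)) (hz l)
  have h0 : ρF i ⟨∑ l, algebraMap F₀ F (a l) * z l, hs⟩ = 0 :=
    (R.resF_eq_zero_iff i _).mpr hsum
  rw [R.res_sum i hover a ha z hz hs] at h0
  have h1 := Fintype.linearIndependent_iff.mp hli _ h0
  intro l
  exact (R.resE_eq_zero_iff _).mp (h1 l)

namespace SatExt

/-- the residues of the family `x i` are linearly independent. -/
theorem linearIndependent_res (T : SatExt Ov O d x) (R : SatRes Ov O ρE ρF) (i : ι) :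
    LinearIndependent Ek (fun l : Fin (d i) => ρF i ⟨x i l, (T.indep i).1 l⟩) := by
  rw [Fintype.linearIndependent_iff]
  intro c hc l
  choose a ha using fun l => R.surjE (c l)
  have hs : ∑ l, algebraMap F₀ F ((a l : Ov) : F₀) * x i l ∈ O i :=
    (O i).toSubring.sum_mem fun l _ =>
      (O i).mul_mem _ _ (((T.liesOver i).mem_iff _).mpr (a l).2) ((T.indep i).1 l)
  have h1 := R.res_sum i (T.liesOver i) (fun l => ((a l : Ov) : F₀)) (fun l => (a l).2) (x i)
    (T.indep i).1 hs
  have h2 : ∑ l, ρE ⟨((a l : Ov) : F₀), (a l).2⟩ • ρF i ⟨x i l, (T.indep i).1 l⟩ = 0 := by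
    rw [← hc]
    refine Finset.sum_congr rfl fun l _ => ?_
    rw [← ha l]
  rw [h2] at h1
  have h3 := (T.indep i).2 (fun l => ((a l : Ov) : F₀)) (fun l => (a l).2)
    ((R.resF_eq_zero_iff i _).mp h1) l
  rw [← ha l]
  exact (R.resE_eq_zero_iff _).mpr h3

/-- the residues of the family `x i` span the residue field. -/
theorem span_res (T : SatExt Ov O d x) (R : SatRes Ov O ρE ρF) (i : ι) :
    Submodule.span Ek (Set.range fun l : Fin (d i) => ρF i ⟨x i l, (T.indep i).1 l⟩) = ⊤ := by
  rw [eq_top_iff]
  rintro β -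
  obtain ⟨y, rfl⟩ := R.surjF i β
  obtain ⟨g, hg, hgy⟩ := T.residue_span i y.2
  have hs : ∑ l, algebraMap F₀ F (g l) * x i l ∈ O i :=
    (O i).toSubring.sum_mem fun l _ =>
      (O i).mul_mem _ _ (((T.liesOver i).mem_iff _).mpr (hg l)) ((T.indep i).1 l)
  have h1 : ρF i y = ρF i ⟨∑ l, algebraMap F₀ F (g l) * x i l, hs⟩ := by
    rw [← sub_eq_zero, ← map_sub]
    exact (R.resF_eq_zero_iff i _).mpr hgy
  rw [h1, R.res_sum i (T.liesOver i) g hg (x i) (T.indep i).1 hs]
  exact Submodule.sum_mem _ fun l _ =>
    Submodule.smul_mem _ _ (Submodule.subset_span ⟨l, rfl⟩)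

/-- the basis of the residue field given by the residues of the family `x i`. -/
def basisRes (T : SatExt Ov O d x) (R : SatRes Ov O ρE ρF) (i : ι) :
    Module.Basis (Fin (d i)) Ek (Fk i) :=
  Module.Basis.mk (T.linearIndependent_res R i) (T.span_res R i).ge

theorem basisRes_apply (T : SatExt Ov O d x) (R : SatRes Ov O ρE ρF) (i : ι) (l : Fin (d i)) :
    T.basisRes R i l = ρF i ⟨x i l, (T.indep i).1 l⟩ := by
  rw [basisRes, Module.Basis.coe_mk]

/-- the residue field at `O i` is finite over the residue field of `Ov`. -/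
theorem finite_res (T : SatExt Ov O d x) (R : SatRes Ov O ρE ρF) (i : ι) :
    Module.Finite Ek (Fk i) :=
  Module.Finite.of_basis (T.basisRes R i)

/-- **the residue degree at `O i` is `d i`**. -/
theorem finrank_res (T : SatExt Ov O d x) (R : SatRes Ov O ρE ρF) (i : ι) :
    Module.finrank Ek (Fk i) = d i := by
  rw [Module.finrank_eq_card_basis (T.basisRes R i), Fintype.card_fin]

/-- `[F : F₀] = ∑ i, [Fk i : Ek]`. -/
theorem finrank_eq_sum_res (T : SatExt Ov O d x) (R : SatRes Ov O ρE ρF) :
    Module.finrank F₀ F = ∑ i, Module.finrank Ek (Fk i) := by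
  rw [← T.sum_eq]
  exact Finset.sum_congr rfl fun i _ => (T.finrank_res R i).symm

/-- if the family at `O i` consists of the powers of `θ`, the residue field at `O i` is
generated by the residue of `θ`. -/
theorem adjoin_res_eq_top (T : SatExt Ov O d x) (R : SatRes Ov O ρE ρF) (i : ι) {θ : F}
    (hθO : θ ∈ O i) (hθ : ∀ l : Fin (d i), x i l = θ ^ (l : ℕ)) :
    Algebra.adjoin Ek {ρF i ⟨θ, hθO⟩} = ⊤ := by
  rw [eq_top_iff]
  rintro β -
  have hβ : β ∈ Submodule.span Ek
      (Set.range fun l : Fin (d i) => ρF i ⟨x i l, (T.indep i).1 l⟩) := by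
    rw [T.span_res R i]
    exact Submodule.mem_top
  refine Submodule.span_le (p := Subalgebra.toSubmodule (Algebra.adjoin Ek {ρF i ⟨θ, hθO⟩})).mpr
    ?_ hβ
  rintro _ ⟨l, rfl⟩
  have e : (⟨x i l, (T.indep i).1 l⟩ : O i) = ⟨θ, hθO⟩ ^ (l : ℕ) := by
    apply Subtype.ext
    rw [SubmonoidClass.coe_pow]
    exact hθ l
  show ρF i ⟨x i l, (T.indep i).1 l⟩ ∈ Algebra.adjoin Ek {ρF i ⟨θ, hθO⟩}
  rw [e, map_pow]
  exact Subalgebra.pow_mem _ (Algebra.subset_adjoin (Set.mem_singleton _)) _

/-- the hypotheses of the abstract norm lemma `normRed_multi` hold for a saturated system. -/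
theorem multiNormSetup (T : SatExt Ov O d x) (R : SatRes Ov O ρE ρF) :
    Fermat.Agent.S36.MultiNormSetup Ov O ρE ρF where
  mem_iff := fun i y => (T.liesOver i).mem_iff y
  red_map := R.red_map
  ker := R.kerE
  lift := by
    intro i β
    obtain ⟨y, rfl⟩ := R.surjF i β
    obtain ⟨b, hb, hby, hbj⟩ := T.exists_jointLift i y.2
    refine ⟨b, hb, ?_, fun l hl => (R.resF_eq_zero_iff l _).mpr (hbj l hl)⟩
    rw [← sub_eq_zero, ← map_sub]
    exact (R.resF_eq_zero_iff i _).mpr hby

/-- **Norm and reduction for a saturated system**: the norm of an element which is integral at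
all the `O i` is integral at `Ov`, and its residue is the product of the norms of the residues. -/
theorem normRed (T : SatExt Ov O d x) (R : SatRes Ov O ρE ρF) (t : F) (ht : ∀ i, t ∈ O i) :
    ∃ h : Algebra.norm F₀ t ∈ Ov,
      ρE ⟨Algebra.norm F₀ t, h⟩ = ∏ i, Algebra.norm Ek (ρF i ⟨t, ht i⟩) := by
  have := T.finite
  have := fun i => T.finite_res R i
  exact Fermat.Agent.S36.normRed_multi (T.multiNormSetup R) (T.finrank_eq_sum_res R) t ht

end SatExt

end Residue

end Fermat.Agent.BadRed
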